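import Mathlib
import Fermat.Prelude.Def_AlgebraicCurve_Repartitions
import Fermat.Agent.Lib.FFPlaces
import Fermat.Agent.Lib.PlaceChart

/-!
# S18 — [RR0], the abstract Riemann step (helper15)

`K` algebraically closed of characteristic zero, `F / K` a function field with a separating
element `x` (`F / K(x)` finite).  For a family `V : Divisor K F → Submodule K E` of `K`-spaces
which is monotone, compatible with multiplication by functions (`V B ↪ V (B - div h)`),
loses at most `d` dimensions per point, and satisfies `dim V (c (x)_∞) ≥ c * (d * n) + γ` for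
all large `c`, we get Riemann's inequality `dim V B ≥ d * deg B + γ` for every divisor `B`.

Everything is in Prelude vocabulary (`AlgebraicCurve.Place`, `Divisor`, `Divisor.degree`).
-/

set_option autoImplicit false

namespace Fermat.Agent.S18.RR0

open AlgebraicCurve IntermediateField Fermat.Agent.Lib

variable {K F : Type*} [Field K] [Field F] [Algebra K F]

/-- The pole multiplicity of `x` at `P`. -/
noncomputable def poleMult (x : F) (P : Place K F) : ℤ := max 0 (-(P.ord x))

theorem poleMult_nonneg (x : F) (P : Place K F) : 0 ≤ poleMult x P := le_max_left _ _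

theorem poleMult_of_nonneg {x : F} {P : Place K F} (h : 0 ≤ P.ord x) : poleMult x P = 0 := by
  rw [poleMult]; omega

theorem poleMult_of_neg {x : F} {P : Place K F} (h : P.ord x < 0) : poleMult x P = -(P.ord x) := by
  rw [poleMult]; omega

theorem ord_pow (P : Place K F) (f : F) (k : ℕ) : P.ord (f ^ k) = k * P.ord f := by
  have h := P.ord_zpow f (k : ℤ)
  rwa [zpow_natCast] at h

/-- `ord_P (x - a) ≥ - poleMult x P`. -/
theorem neg_poleMult_le_ord_sub (x : F) (a : K) (P : Place K F)
    (hne : x - algebraMap K F a ≠ 0) : -poleMult x P ≤ P.ord (x - algebraMap K F a) := by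
  by_cases hx0 : x = 0
  · subst hx0
    have : poleMult (0 : F) P = 0 := by simp [poleMult]
    rw [this, neg_zero]
    have hmem : (0 : F) - algebraMap K F a ∈ P.toValuationSubring :=
      sub_mem (zero_mem _) (P.algebraMap_mem' a)
    exact (FFPlaces.mem_iff_ord_nonneg P hne).mp hmem
  by_cases hx : 0 ≤ P.ord x
  · rw [poleMult_of_nonneg hx, neg_zero]
    have hxm : x ∈ P.toValuationSubring := (FFPlaces.mem_iff_ord_nonneg P hx0).mpr hx
    exact (FFPlaces.mem_iff_ord_nonneg P hne).mp (sub_mem hxm (P.algebraMap_mem' a))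
  · have hx' : P.ord x < 0 := not_le.mp hx
    rw [poleMult_of_neg hx', neg_neg]
    -- `(x - a) / x = 1 - a / x` is integral at `P`
    have hinv : x⁻¹ ∈ P.toValuationSubring := by
      rw [FFPlaces.mem_iff_ord_nonneg P (inv_ne_zero hx0), P.ord_inv]
      omega
    have hq : (x - algebraMap K F a) * x⁻¹ ∈ P.toValuationSubring := by
      have : (x - algebraMap K F a) * x⁻¹ = 1 - algebraMap K F a * x⁻¹ := by
        field_simp
      rw [this]
      exact sub_mem (one_mem _) (mul_mem (P.algebraMap_mem' a) hinv)
    have hq0 : (x - algebraMap K F a) * x⁻¹ ≠ 0 := mul_ne_zero hne (inv_ne_zero hx0)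
    have h1 := (FFPlaces.mem_iff_ord_nonneg P hq0).mp hq
    rw [P.ord_mul hne (inv_ne_zero hx0), P.ord_inv] at h1
    omega

section principal

variable [IsAlgClosed K] [CharZero K] {x : F} [FiniteDimensional K⟮x⟯ F]

omit [IsAlgClosed K] [CharZero K] in
theorem isFunctionField1 (hxt : Transcendental K x) : PlaceChart.IsFunctionField1 K F :=
  ⟨x, hxt, inferInstance⟩

omit [FiniteDimensional K⟮x⟯ F] in
theorem degree_eq_sum (hFF : PlaceChart.IsFunctionField1 K F) (D : Divisor K F) :
    Divisor.degree D = ∑ v ∈ D.support, D v := by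
  have h : Divisor.degree D = D.sum fun v n => n * (v.deg : ℤ) := by
    simp [Divisor.degree, Finsupp.liftAddHom_apply]
  rw [h, Finsupp.sum]
  refine Finset.sum_congr rfl fun v _ => ?_
  rw [PlaceChart.deg_eq_one hFF v, Nat.cast_one, mul_one]

/-- The principal divisor of a transcendental element exists and has degree zero. -/
theorem exists_divisor_of_transcendental (hxt : Transcendental K x) :
    ∃ D : Divisor K F, (∀ v : Place K F, D v = v.ord x) ∧ Divisor.degree D = 0 := by
  classical
  have hfz := FFPlaces.finite_zeros_self hxt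
  have hfp := FFPlaces.finite_poles hxt
  have hsupp : (Function.support fun v : Place K F => v.ord x).Finite := by
    refine (hfz.union hfp).subset ?_
    intro v hv
    have hv' : v.ord x ≠ 0 := hv
    rcases lt_or_gt_of_ne hv' with h | h
    · exact Or.inr h
    · exact Or.inl h
  refine ⟨Finsupp.ofSupportFinite _ hsupp, fun v => rfl, ?_⟩
  rw [degree_eq_sum (isFunctionField1 hxt)]
  have hs : (Finsupp.ofSupportFinite (fun v : Place K F => v.ord x) hsupp).support
      = hfz.toFinset ∪ hfp.toFinset := by
    ext v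
    simp only [Finsupp.mem_support_iff, Finset.mem_union, Set.Finite.mem_toFinset,
      Set.mem_ofPred_eq]
    show v.ord x ≠ 0 ↔ _
    omega
  have hdisj : Disjoint hfz.toFinset hfp.toFinset := by
    rw [Finset.disjoint_left]
    intro v h1 h2
    simp only [Set.Finite.mem_toFinset, Set.mem_ofPred_eq] at h1 h2
    omega
  rw [hs, Finset.sum_union hdisj]
  have h1 := FFPlaces.sum_ord_zeros_self hxt
  have h2 := FFPlaces.sum_ord_poles hxt
  rw [finsum_mem_eq_finite_toFinset_sum _ hfz] at h1
  rw [finsum_mem_eq_finite_toFinset_sum _ hfp] at h2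
  have e1 : ∑ v ∈ hfz.toFinset, (Finsupp.ofSupportFinite (fun v : Place K F => v.ord x) hsupp) v
      = ∑ v ∈ hfz.toFinset, v.ord x := Finset.sum_congr rfl fun v _ => rfl
  have e2 : ∑ v ∈ hfp.toFinset, (Finsupp.ofSupportFinite (fun v : Place K F => v.ord x) hsupp) v
      = ∑ v ∈ hfp.toFinset, v.ord x := Finset.sum_congr rfl fun v _ => rfl
  rw [e1, e2, h1, h2]
  ring

/-- The pole divisor of `x` exists and has degree `[F : K(x)]`. -/
theorem exists_poleDivisor (hxt : Transcendental K x) :
    ∃ D : Divisor K F, (∀ v : Place K F, D v = poleMult x v) ∧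
      Divisor.degree D = (Module.finrank K⟮x⟯ F : ℤ) := by
  classical
  have hfp := FFPlaces.finite_poles hxt
  have hsupp : (Function.support fun v : Place K F => poleMult x v).Finite := by
    refine hfp.subset ?_
    intro v hv
    have hv' : poleMult x v ≠ 0 := hv
    by_contra hneg
    exact hv' (poleMult_of_nonneg (not_lt.mp hneg))
  refine ⟨Finsupp.ofSupportFinite _ hsupp, fun v => rfl, ?_⟩
  rw [degree_eq_sum (isFunctionField1 hxt)]
  have hs : (Finsupp.ofSupportFinite (fun v : Place K F => poleMult x v) hsupp).support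
      = hfp.toFinset := by
    ext v
    simp only [Finsupp.mem_support_iff, Set.Finite.mem_toFinset, Set.mem_ofPred_eq]
    show poleMult x v ≠ 0 ↔ _
    rw [poleMult]
    omega
  rw [hs]
  have h2 := FFPlaces.sum_ord_poles hxt
  rw [finsum_mem_eq_finite_toFinset_sum _ hfp] at h2
  have e2 : ∑ v ∈ hfp.toFinset, (Finsupp.ofSupportFinite (fun v : Place K F => poleMult x v) hsupp) v
      = ∑ v ∈ hfp.toFinset, -(v.ord x) := by
    refine Finset.sum_congr rfl fun v hv => ?_
    have hv' : v.ord x < 0 := by simpa using hv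
    exact poleMult_of_neg hv'
  rw [e2, Finset.sum_neg_distrib, h2, neg_neg]

/-- Every place at which `x` is integral is a zero of some `x - a`. -/
theorem exists_residue (hxt : Transcendental K x) (P : Place K F) (hx : 0 ≤ P.ord x) :
    ∃ a : K, 0 < P.ord (x - algebraMap K F a) := by
  have hx0 : x ≠ 0 := fun h => hxt (h ▸ isAlgebraic_zero)
  have hmem : x ∈ P.toValuationSubring := (FFPlaces.mem_iff_ord_nonneg P hx0).mpr hx
  obtain ⟨a, ha⟩ := PlaceChart.exists_sub_mem_maximalIdeal (isFunctionField1 hxt) P ⟨x, hmem⟩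
  refine ⟨a, ?_⟩
  have hne : x - algebraMap K F a ≠ 0 := FFPlaces.sub_algebraMap_ne_zero hxt a
  rw [FFPlaces.ord_pos_iff P hne]
  refine ⟨sub_mem hmem (P.algebraMap_mem' a), fun hinv => ?_⟩
  have hunit : IsUnit ((⟨x, hmem⟩ : P.toValuationSubring) - algebraMap K P.toValuationSubring a) := by
    refine IsUnit.of_mul_eq_one ⟨(x - algebraMap K F a)⁻¹, hinv⟩ ?_
    apply Subtype.ext
    change (x - algebraMap K F a) * (x - algebraMap K F a)⁻¹ = 1
    exact mul_inv_cancel₀ hne
  exact (IsLocalRing.mem_maximalIdeal _).mp ha hunit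

/-- **The explicit Riemann step on `F`**: every divisor is bounded by a multiple of the pole
divisor of `x` plus a principal divisor. -/
theorem exists_bound (hxt : Transcendental K x) (B : Divisor K F) :
    ∃ (h : F) (Dh : Divisor K F) (c : ℕ), h ≠ 0 ∧ (∀ P : Place K F, Dh P = P.ord h) ∧
      Divisor.degree Dh = 0 ∧ ∀ P : Place K F, B P ≤ c * poleMult x P + Dh P := by
  classical
  induction B using Finsupp.induction with
  | zero =>
    refine ⟨1, 0, 0, one_ne_zero, fun P => by simp, by simp, fun P => by simp⟩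
  | single_add Q b f hQ hb ih =>
    obtain ⟨h', Dh', c', hh', hD', hdeg', hle'⟩ := ih
    have hfQ : f Q = 0 := by simpa using hQ
    by_cases hx : 0 ≤ Q.ord x
    · -- a finite point: multiply by a power of `x - a`
      obtain ⟨a, ha⟩ := exists_residue hxt Q hx
      have hne : x - algebraMap K F a ≠ 0 := FFPlaces.sub_algebraMap_ne_zero hxt a
      have hut : Transcendental K (x - algebraMap K F a) :=
        FFPlaces.transcendental_sub_algebraMap hxt a
      have : FiniteDimensional K⟮x - algebraMap K F a⟯ F :=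
        FFPlaces.finiteDimensional_of_eq (FFPlaces.adjoin_sub_algebraMap (K := K) x a).symm
      obtain ⟨Du, hDu, hdegu⟩ := exists_divisor_of_transcendental hut
      refine ⟨h' * (x - algebraMap K F a) ^ b.toNat, Dh' + b.toNat • Du, c' + b.toNat,
        mul_ne_zero hh' (pow_ne_zero _ hne), ?_, ?_, ?_⟩
      · intro P
        rw [P.ord_mul hh' (pow_ne_zero _ hne), ord_pow, Finsupp.add_apply, Finsupp.smul_apply,
          hD', hDu, nsmul_eq_mul]
      · rw [map_add, map_nsmul, hdeg', hdegu]
        simp
      · intro P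
        have hlow := neg_poleMult_le_ord_sub x a P hne
        have hpm := poleMult_nonneg x P
        rw [Finsupp.add_apply, Finsupp.add_apply, Finsupp.smul_apply, hDu, nsmul_eq_mul]
        have hP := hle' P
        by_cases hPQ : P = Q
        · subst hPQ
          rw [Finsupp.single_eq_same]
          have hb' : b ≤ (b.toNat : ℤ) := Int.self_le_toNat b
          have hk : (0 : ℤ) ≤ (b.toNat : ℤ) := Int.natCast_nonneg _
          push_cast
          nlinarith
        · rw [Finsupp.single_eq_of_ne hPQ]
          have hk : (0 : ℤ) ≤ (b.toNat : ℤ) := Int.natCast_nonneg _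
          push_cast
          nlinarith
    · -- a pole of `x`: raise the multiple of the pole divisor
      have hx' : Q.ord x < 0 := not_le.mp hx
      refine ⟨h', Dh', c' + b.toNat, hh', hD', hdeg', ?_⟩
      intro P
      have hpm := poleMult_nonneg x P
      have hP := hle' P
      rw [Finsupp.add_apply]
      have hk : (0 : ℤ) ≤ (b.toNat : ℤ) := Int.natCast_nonneg _
      by_cases hPQ : P = Q
      · subst hPQ
        rw [Finsupp.single_eq_same]
        have hb' : b ≤ (b.toNat : ℤ) := Int.self_le_toNat b
        have h1 : 1 ≤ poleMult x P := by rw [poleMult_of_neg hx']; omega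
        push_cast
        nlinarith
      · rw [Finsupp.single_eq_of_ne hPQ]
        push_cast
        nlinarith

end principal

section descent

variable {E : Type*} [AddCommGroup E] [Module K E]

/-- An effective divisor, from its multiplicities. -/
noncomputable def effDiv (E₀ : Place K F →₀ ℕ) : Divisor K F :=
  E₀.mapRange (fun n : ℕ => (n : ℤ)) Nat.cast_zero

theorem effDiv_apply (E₀ : Place K F →₀ ℕ) (P : Place K F) : effDiv E₀ P = (E₀ P : ℤ) := by
  rw [effDiv, Finsupp.mapRange_apply]

theorem effDiv_nonneg (E₀ : Place K F →₀ ℕ) : 0 ≤ effDiv E₀ := by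
  intro P
  rw [effDiv_apply]
  exact Int.natCast_nonneg _

theorem effDiv_zero : effDiv (0 : Place K F →₀ ℕ) = 0 := by
  ext P; rw [effDiv_apply]; simp

theorem effDiv_add (f g : Place K F →₀ ℕ) : effDiv (f + g) = effDiv f + effDiv g := by
  ext P
  rw [effDiv_apply, Finsupp.add_apply, Finsupp.add_apply, effDiv_apply, effDiv_apply]
  push_cast
  rfl

theorem effDiv_single (P : Place K F) (m : ℕ) :
    effDiv (Finsupp.single P m) = Finsupp.single P (m : ℤ) := by
  classical
  ext Q
  rw [effDiv_apply]
  by_cases h : Q = P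
  · subst h; simp
  · rw [Finsupp.single_eq_of_ne h, Finsupp.single_eq_of_ne h]; rfl

/-- Each point costs at most `d` dimensions. -/
theorem finrank_descent (V : Divisor K F → Submodule K E) (d : ℕ)
    (hmono : ∀ B B' : Divisor K F, B ≤ B' → V B ≤ V B')
    (hstep : ∀ (B : Divisor K F) (P : Place K F), Module.Finite K (V B) →
      Module.finrank K (V B) ≤ Module.finrank K (V (B - Finsupp.single P 1)) + d)
    (E₀ : Place K F →₀ ℕ) : ∀ B : Divisor K F, Module.Finite K (V B) →
      Module.finrank K (V B) ≤ Module.finrank K (V (B - effDiv E₀))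
        + d * (E₀.sum fun _ n => n) := by
  classical
  have hfin : ∀ (B : Divisor K F) (E₁ : Place K F →₀ ℕ), Module.Finite K (V B) →
      Module.Finite K (V (B - effDiv E₁)) := by
    intro B E₁ hB
    have hle : V (B - effDiv E₁) ≤ V B := hmono _ _ (sub_le_self B (effDiv_nonneg E₁))
    exact Submodule.finiteDimensional_of_le hle
  induction E₀ using Finsupp.induction_linear with
  | zero =>
    intro B _
    rw [effDiv_zero, sub_zero]
    simp
  | add f g ihf ihg =>
    intro B hB
    have h1 := ihf B hB
    have h2 := ihg (B - effDiv f) (hfin B f hB)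
    have e : B - effDiv f - effDiv g = B - effDiv (f + g) := by
      rw [effDiv_add, sub_sub]
    rw [e] at h2
    have hs : ((f + g).sum fun _ n => n) = (f.sum fun _ n => n) + (g.sum fun _ n => n) :=
      Finsupp.sum_add_index' (fun _ => rfl) (fun _ _ _ => rfl)
    rw [hs, mul_add]
    omega
  | single P m =>
    induction m with
    | zero =>
      intro B _
      rw [Finsupp.single_zero, effDiv_zero, sub_zero]
      simp
    | succ m ihm =>
      intro B hB
      have h1 := ihm B hB
      have hfin1 := hfin B (Finsupp.single P m) hB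
      have h2 := hstep (B - effDiv (Finsupp.single P m)) P hfin1
      have e : B - effDiv (Finsupp.single P m) - Finsupp.single P 1
          = B - effDiv (Finsupp.single P (m + 1)) := by
        rw [effDiv_single, effDiv_single, sub_sub, ← Finsupp.single_add]
        push_cast
        rfl
      rw [e] at h2
      rw [Finsupp.sum_single_index rfl] at h1 ⊢
      have : d * (m + 1) = d * m + d := by ring
      omega

theorem effDiv_toNat (D : Divisor K F) (hD : 0 ≤ D) :
    effDiv (D.mapRange Int.toNat Int.toNat_zero) = D := by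
  ext P
  rw [effDiv_apply, Finsupp.mapRange_apply]
  exact Int.toNat_of_nonneg (hD P)

theorem degree_effDiv (hFF : PlaceChart.IsFunctionField1 K F) [IsAlgClosed K] [CharZero K]
    (E₀ : Place K F →₀ ℕ) :
    Divisor.degree (effDiv E₀) = ((E₀.sum fun _ n => n : ℕ) : ℤ) := by
  classical
  induction E₀ using Finsupp.induction_linear with
  | zero => simp [effDiv_zero]
  | add f g ihf ihg =>
    have hs : ((f + g).sum fun _ n => n) = (f.sum fun _ n => n) + (g.sum fun _ n => n) :=
      Finsupp.sum_add_index' (fun _ => rfl) (fun _ _ _ => rfl)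
    rw [effDiv_add, map_add, ihf, ihg, hs]
    push_cast
    rfl
  | single P m =>
    rw [effDiv_single, Divisor.degree_single, PlaceChart.deg_eq_one hFF P,
      Finsupp.sum_single_index rfl]
    simp

/-- **The abstract Riemann step.** -/
theorem riemann_step [IsAlgClosed K] [CharZero K] {x : F} [FiniteDimensional K⟮x⟯ F]
    (hxt : Transcendental K x) (V : Divisor K F → Submodule K E) (d : ℕ) (γ : ℤ)
    (hmono : ∀ B B' : Divisor K F, B ≤ B' → V B ≤ V B')
    (hmul : ∀ (B : Divisor K F) (h : F) (Dh : Divisor K F), h ≠ 0 →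
      (∀ P : Place K F, Dh P = P.ord h) → ∃ f : V B →ₗ[K] V (B - Dh), Function.Injective f)
    (hstep : ∀ (B : Divisor K F) (P : Place K F), Module.Finite K (V B) →
      Module.finrank K (V B) ≤ Module.finrank K (V (B - Finsupp.single P 1)) + d)
    (hbase : ∃ c₀ : ℕ, ∀ c : ℕ, c₀ ≤ c → ∀ D : Divisor K F,
      (∀ P : Place K F, D P = c * poleMult x P) →
      Module.Finite K (V D) ∧
        (c : ℤ) * (d * Module.finrank K⟮x⟯ F) + γ ≤ Module.finrank K (V D))
    (B : Divisor K F) :
    Module.Finite K (V B) ∧ (d : ℤ) * Divisor.degree B + γ ≤ Module.finrank K (V B) := by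
  classical
  have hFF := isFunctionField1 hxt
  obtain ⟨h, Dh, c₁, hh, hDh, hdeg, hle⟩ := exists_bound hxt B
  obtain ⟨c₀, hc₀⟩ := hbase
  obtain ⟨X, hX, hXdeg⟩ := exists_poleDivisor hxt
  set c := max c₁ c₀ with hc
  have hB₂ : ∀ P : Place K F, (c • X) P = c * poleMult x P := by
    intro P
    rw [Finsupp.smul_apply, hX, nsmul_eq_mul]
  obtain ⟨hfin₂, hdim₂⟩ := hc₀ c (le_max_right _ _) (c • X) hB₂
  -- `B₁ = B - div h ≤ B₂ = c (x)_∞`
  have hle₁ : B - Dh ≤ c • X := by
    intro P
    rw [Finsupp.sub_apply, hB₂]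
    have h1 := hle P
    have h2 := poleMult_nonneg x P
    have h3 : (c₁ : ℤ) ≤ (c : ℤ) := by exact_mod_cast le_max_left c₁ c₀
    nlinarith
  have hE : 0 ≤ c • X - (B - Dh) := sub_nonneg.mpr hle₁
  set E₀ : Place K F →₀ ℕ := (c • X - (B - Dh)).mapRange Int.toNat Int.toNat_zero with hE₀
  have hE₀' : effDiv E₀ = c • X - (B - Dh) := effDiv_toNat _ hE
  have hdesc := finrank_descent V d hmono hstep E₀ (c • X) hfin₂
  have e₁ : c • X - effDiv E₀ = B - Dh := by rw [hE₀']; abel
  rw [e₁] at hdesc
  have hsum : ((E₀.sum fun _ n => n : ℕ) : ℤ)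
      = (c : ℤ) * Module.finrank K⟮x⟯ F - Divisor.degree B := by
    rw [← degree_effDiv hFF, hE₀', map_sub, map_sub, map_nsmul, hXdeg, hdeg]
    simp
  -- `V B ≅ V (B - div h)`
  have hfin₁ : Module.Finite K (V (B - Dh)) :=
    Submodule.finiteDimensional_of_le (hmono _ _ hle₁)
  obtain ⟨f, hf⟩ := hmul B h Dh hh hDh
  have hfinB : Module.Finite K (V B) := Module.Finite.of_injective f hf
  have key := hmul (B - Dh) h⁻¹ (-Dh) (inv_ne_zero hh) (fun P => by
    rw [Finsupp.neg_apply, hDh, P.ord_inv])
  have e₂ : B - Dh - -Dh = B := by abel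
  rw [e₂] at key
  obtain ⟨g, hg⟩ := key
  have hrank : Module.finrank K (V (B - Dh)) ≤ Module.finrank K (V B) :=
    LinearMap.finrank_le_finrank_of_injective hg
  refine ⟨hfinB, ?_⟩
  have hdesc' : (Module.finrank K (V (c • X)) : ℤ)
      ≤ Module.finrank K (V (B - Dh)) + d * ((E₀.sum fun _ n => n : ℕ) : ℤ) := by
    exact_mod_cast hdesc
  rw [hsum] at hdesc'
  have hrank' : (Module.finrank K (V (B - Dh)) : ℤ) ≤ Module.finrank K (V B) := by
    exact_mod_cast hrank
  have hring : (d : ℤ) * ((c : ℤ) * Module.finrank K⟮x⟯ F - Divisor.degree B)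
      = (c : ℤ) * (d * Module.finrank K⟮x⟯ F) - d * Divisor.degree B := by ring
  rw [hring] at hdesc'
  linarith

end descent

end Fermat.Agent.S18.RR0
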