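import Mathlib
import Fermat.Agent.S18.FibreCount

/-!
# S18 — [RR0]: the tower `Q̄(j) ⊆ F_N ⊆ F_{N'}` for `N ∣ N'` (helper15)

* `tower_generic`: for fields `K ⊆ F ⊆ F'` and `x : F` with `F' / K(x)` finite, `F' / F` is finite
  and `[F : K(x)] * [F' : F] = [F' : K(x)]` (the two copies of `K(x)` live in `F` and in `F'`).
* `modularFunctionFieldBar_le`: `F_N ≤ F_{N'}` inside `Q̄((q))` for `N ∣ N'`.
* `levelAlgebra hdiv : Algebra (FN N) (FN N')` (the inclusion), with
  `finiteDimensional_level` and `finrank_level_mul : [F_{N'} : F_N] * ψ(N) = ψ(N')`.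
-/

set_option autoImplicit false

namespace Fermat.Agent.S18.RR0

open IntermediateField ModularCurve Fermat.Agent.S24

section generic

variable {K F F' : Type*} [Field K] [Field F] [Field F'] [Algebra K F] [Algebra K F']
  [Algebra F F'] [IsScalarTower K F F']

theorem map_adjoin_simple (x : F) :
    (K⟮x⟯).map (IsScalarTower.toAlgHom K F F') = K⟮algebraMap F F' x⟯ := by
  rw [IntermediateField.adjoin_map, Set.image_singleton]
  rfl

theorem algebraMap_mem_adjoin (x : F) (r : K⟮x⟯) :
    algebraMap F F' (r : F) ∈ K⟮algebraMap F F' x⟯ := by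
  rw [← map_adjoin_simple (K := K) x]
  exact ⟨r, r.2, rfl⟩

theorem exists_algebraMap_eq_of_mem_adjoin (x : F) (s : K⟮algebraMap F F' x⟯) :
    ∃ r : K⟮x⟯, algebraMap F F' (r : F) = (s : F') := by
  have hs : (s : F') ∈ (K⟮x⟯).map (IsScalarTower.toAlgHom K F F') := by
    rw [map_adjoin_simple (K := K) x]
    exact s.2
  obtain ⟨r, hr, hrs⟩ := hs
  exact ⟨⟨r, hr⟩, hrs⟩

/-- The tower `K(x) ⊆ F ⊆ F'`. -/
theorem tower_generic (x : F) [FiniteDimensional K⟮algebraMap F F' x⟯ F'] :
    FiniteDimensional F F' ∧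
      Module.finrank K⟮x⟯ F * Module.finrank F F' = Module.finrank K⟮algebraMap F F' x⟯ F' := by
  let φ : K⟮x⟯ →+* K⟮algebraMap F F' x⟯ :=
    ((algebraMap F F').comp (algebraMap K⟮x⟯ F)).codRestrict K⟮algebraMap F F' x⟯
      (fun r => algebraMap_mem_adjoin (K := K) x r)
  let _ : Algebra K⟮x⟯ K⟮algebraMap F F' x⟯ := φ.toAlgebra
  have htower : IsScalarTower K⟮x⟯ K⟮algebraMap F F' x⟯ F' :=
    IsScalarTower.of_algebraMap_eq fun r => rfl
  have hbij : Function.Bijective (Algebra.linearMap K⟮x⟯ K⟮algebraMap F F' x⟯) := by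
    refine ⟨(algebraMap K⟮x⟯ K⟮algebraMap F F' x⟯).injective, fun s => ?_⟩
    obtain ⟨r, hr⟩ := exists_algebraMap_eq_of_mem_adjoin (K := K) x s
    exact ⟨r, Subtype.ext hr⟩
  have hfin1 : Module.Finite K⟮x⟯ K⟮algebraMap F F' x⟯ :=
    Module.Finite.of_surjective (Algebra.linearMap K⟮x⟯ K⟮algebraMap F F' x⟯) hbij.2
  have hfin : Module.Finite K⟮x⟯ F' := Module.Finite.trans K⟮algebraMap F F' x⟯ F'
  have hone : Module.finrank K⟮x⟯ K⟮algebraMap F F' x⟯ = 1 := by
    rw [← (LinearEquiv.ofBijective _ hbij).finrank_eq, Module.finrank_self]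
  have h1 := Module.finrank_mul_finrank K⟮x⟯ K⟮algebraMap F F' x⟯ F'
  have h2 := Module.finrank_mul_finrank K⟮x⟯ F F'
  rw [hone, one_mul] at h1
  exact ⟨FiniteDimensional.right K⟮x⟯ F F', by rw [h2, h1]⟩

end generic

section level

theorem laurentBaseChange_mono (L : Type*) [Field L] [Algebra ℚ L]
    {F₀ F₁ : IntermediateField ℚ (LaurentSeries ℚ)} (h : F₀ ≤ F₁) :
    laurentBaseChange L F₀ ≤ laurentBaseChange L F₁ := by
  rw [laurentBaseChange, IntermediateField.adjoin_le_iff]
  rintro _ ⟨y, hy, rfl⟩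
  exact coeffEmb_mem_laurentBaseChange L (h hy)

variable {N N' : ℕ} [NeZero N] [NeZero N']

/-- `F_N ≤ F_{N'}` inside `Q̄((q))` for `N ∣ N'`. -/
theorem modularFunctionFieldBar_le (hdiv : N ∣ N') :
    modularFunctionFieldBar N ≤ modularFunctionFieldBar N' :=
  laurentBaseChange_mono _ (full_degeneracy_le hdiv)

/-- The inclusion `F_N → F_{N'}` as an algebra structure. -/
@[reducible] noncomputable def levelAlgebra (hdiv : N ∣ N') : Algebra (FN N) (FN N') :=
  (IntermediateField.inclusion (modularFunctionFieldBar_le hdiv)).toRingHom.toAlgebra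

theorem coe_levelAlgebraMap (hdiv : N ∣ N') (f : FN N) :
    (((levelAlgebra hdiv).algebraMap f : FN N') : LaurentSeries Kbar) = (f : LaurentSeries Kbar) :=
  IntermediateField.coe_inclusion _ f

theorem levelScalarTower (hdiv : N ∣ N') :
    letI := levelAlgebra hdiv
    IsScalarTower Kbar (FN N) (FN N') :=
  let _ : Algebra (FN N) (FN N') := levelAlgebra hdiv
  IsScalarTower.of_algebraMap_eq fun a =>
    ((IntermediateField.inclusion (modularFunctionFieldBar_le hdiv)).commutes a).symm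

theorem coe_jBar (N : ℕ) [NeZero N] : ((jBar N : FN N) : LaurentSeries Kbar) = coeffEmb Kbar jq :=
  rfl

theorem levelAlgebraMap_jBar (hdiv : N ∣ N') :
    (levelAlgebra hdiv).algebraMap (jBar N) = jBar N' :=
  Subtype.ext (by rw [coe_levelAlgebraMap hdiv, coe_jBar, coe_jBar])

/-- `F_{N'} / F_N` is finite. -/
theorem finiteDimensional_level (hdiv : N ∣ N') :
    letI := levelAlgebra hdiv
    FiniteDimensional (FN N) (FN N') := by
  let _ : Algebra (FN N) (FN N') := levelAlgebra hdiv
  have := levelScalarTower hdiv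
  have hj : algebraMap (FN N) (FN N') (jBar N) = jBar N' := levelAlgebraMap_jBar hdiv
  have : FiniteDimensional Kbar⟮algebraMap (FN N) (FN N') (jBar N)⟯ (FN N') := by
    rw [hj]
    exact FibreCount.finiteDimensional N'
  exact (tower_generic (K := Kbar) (jBar N)).1

/-- `[F_{N'} : F_N] * ψ(N) = ψ(N')`. -/
theorem finrank_level_mul (hdiv : N ∣ N') :
    letI := levelAlgebra hdiv
    Module.finrank (FN N) (FN N') * dedekindPsi N = dedekindPsi N' := by
  let _ : Algebra (FN N) (FN N') := levelAlgebra hdiv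
  have := levelScalarTower hdiv
  have hj : algebraMap (FN N) (FN N') (jBar N) = jBar N' := levelAlgebraMap_jBar hdiv
  have : FiniteDimensional Kbar⟮algebraMap (FN N) (FN N') (jBar N)⟯ (FN N') := by
    rw [hj]
    exact FibreCount.finiteDimensional N'
  have h := (tower_generic (K := Kbar) (F := FN N) (F' := FN N') (jBar N)).2
  have h1 : Module.finrank Kbar⟮algebraMap (FN N) (FN N') (jBar N)⟯ (FN N') = dedekindPsi N' := by
    rw [hj]
    exact FibreCount.finrank_eq N'
  rw [h1, FibreCount.finrank_eq N] at h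
  rw [mul_comm]
  exact h

end level

end Fermat.Agent.S18.RR0
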