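import Mathlib
import Fermat.Agent.S18.Plan
import Fermat.Prelude.Def_AlgebraicCurve_DivisorPushPull
import Fermat.Agent.S18.RR0.Step
import Fermat.Agent.S18.RR0.Tower
import Fermat.Agent.Lib.DedekindWeber.Places

/-!
# S18 — [RR0]: the pull-back spaces `Plan.pullRR` (helper15)

* `pullRR_mono`, `pullRR_mul` : monotonicity, and multiplication by a function of `F_N`;
* `pullRR_base` : for `D = c (j)_∞` on `F_N` and `D' = c (j)_∞` on `F_{N'}`,
  `pullRR N N' D` is the image in `Q̄((q))` of the Prelude space `riemannRochSpace D'`.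
-/

set_option autoImplicit false

namespace Fermat.Agent.S18.RR0

open IntermediateField ModularCurve AlgebraicCurve Fermat.Agent.S24 Fermat.Agent.S18.Plan
open Fermat.Agent.Lib Fermat.Agent.S18.Content

/-! ### Generic integrality transfers -/

section integral

/-- Integrality over a smaller subring implies integrality over a bigger one. -/
theorem isIntegral_subring_mono {Ω : Type*} [CommRing Ω] {S₁ S₂ : Subring Ω} (h : S₁ ≤ S₂)
    {z : Ω} (hz : IsIntegral S₁ z) : IsIntegral S₂ z := by
  obtain ⟨p, hp, hpz⟩ := hz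
  refine ⟨p.map (Subring.inclusion h), hp.map _, ?_⟩
  rw [Polynomial.eval₂_map]
  exact hpz

/-- Integrality over the image of a subring under an injective map descends. -/
theorem isIntegral_of_map {F' Ω : Type*} [CommRing F'] [CommRing Ω] (ι : F' →+* Ω)
    (hι : Function.Injective ι) (O : Subring F') (y : F') (h : IsIntegral (O.map ι) (ι y)) :
    IsIntegral O y := by
  obtain ⟨p, hp, hpz⟩ := h
  let e : O ≃+* O.map ι := O.equivMapOfInjective ι hι
  refine ⟨p.map (e.symm : O.map ι →+* O), hp.map _, ?_⟩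
  apply hι
  rw [map_zero, Polynomial.hom_eval₂, Polynomial.eval₂_map]
  have hcomp : (ι.comp (algebraMap O F')).comp (e.symm : O.map ι →+* O)
      = algebraMap (O.map ι) Ω := by
    ext r
    obtain ⟨s, rfl⟩ := e.surjective r
    simp only [RingHom.coe_comp, RingHom.coe_coe, Function.comp_apply, RingEquiv.symm_apply_apply]
    rfl
  rw [hcomp]
  exact hpz

/-- Integrality is transported along a ring hom into a subring containing the image of the base. -/
theorem isIntegral_subring_of_algebra {R F' Ω : Type*} [CommRing R] [CommRing F'] [CommRing Ω]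
    [Algebra R F'] (ι : F' →+* Ω) (S : Subring Ω) (hS : ∀ r : R, ι (algebraMap R F' r) ∈ S)
    {y : F'} (hy : IsIntegral R y) : IsIntegral S (ι y) := by
  obtain ⟨p, hp, hpy⟩ := hy
  let φ : R →+* S := (ι.comp (algebraMap R F')).codRestrict S hS
  refine ⟨p.map φ, hp.map _, ?_⟩
  rw [Polynomial.eval₂_map]
  have hcomp : (algebraMap S Ω).comp φ = ι.comp (algebraMap R F') := by
    ext r
    rfl
  rw [hcomp, ← Polynomial.hom_eval₂, hpy, map_zero]

end integral

/-! ### Monotonicity and multiplication -/

section basic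

variable {N N' : ℕ}

theorem pullRR_mono {B B' : Divisor Kbar (FN N)} (h : B ≤ B') :
    pullRR N N' B ≤ pullRR N N' B' := by
  rintro g ⟨hg, hint⟩
  exact ⟨hg, fun P t ht hB => hint P t ht ((h P).trans hB)⟩

variable [NeZero N] [NeZero N']

omit [NeZero N] in
theorem coe_ne_zero {h : FN N} (hh : h ≠ 0) : ((h : FN N) : Om) ≠ 0 := fun h0 =>
  hh (Subtype.ext h0)

/-- Multiplication by `h ∈ F_N^×` maps `pullRR B` injectively into `pullRR (B - div h)`. -/
theorem pullRR_mul (hdiv : N ∣ N') (B : Divisor Kbar (FN N)) (h : FN N) (Dh : Divisor Kbar (FN N))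
    (hh : h ≠ 0) (hDh : ∀ P : Place Kbar (FN N), Dh P = P.ord h) :
    ∃ f : pullRR N N' B →ₗ[Kbar] pullRR N N' (B - Dh), Function.Injective f := by
  have hmem : ∀ g ∈ pullRR N N' B, ((h : FN N) : Om) * g ∈ pullRR N N' (B - Dh) := by
    rintro g ⟨hg, hint⟩
    refine ⟨mul_mem (modularFunctionFieldBar_le hdiv h.2) hg, fun P t ht hB => ?_⟩
    have hB' : B P ≤ P.ord (t * h) := by
      rw [P.ord_mul ht hh]
      have h1 := hDh P
      rw [Finsupp.sub_apply] at hB
      omega
    have h2 := hint P (t * h) (mul_ne_zero ht hh) hB'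
    have e : ((t * h : FN N) : Om) * g = (t : Om) * (((h : FN N) : Om) * g) := by
      rw [← mul_assoc]
      rfl
    rw [e] at h2
    exact h2
  refine ⟨{ toFun := fun g => ⟨((h : FN N) : Om) * g.1, hmem g.1 g.2⟩
            map_add' := fun a b => Subtype.ext (mul_add _ _ _)
            map_smul' := fun a g => Subtype.ext (by
              show ((h : FN N) : Om) * (a • (g : Om)) = a • (((h : FN N) : Om) * (g : Om))
              rw [← HahnSeries.C_mul_eq_smul, ← HahnSeries.C_mul_eq_smul, mul_left_comm]) }, ?_⟩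
  intro a b hab
  have h1 : ((h : FN N) : Om) * (a : Om) = ((h : FN N) : Om) * (b : Om) :=
    congrArg Subtype.val hab
  exact Subtype.ext (mul_left_cancel₀ (coe_ne_zero hh) h1)

end basic

/-! ### The base case `B = c (j)_∞` -/

section base

variable {N N' : ℕ}

/-- `F_{N'} → Q̄((q))`, as a `Q̄`-linear map (Hahn series module structure on the target). -/
noncomputable def inclLin (N' : ℕ) : FN N' →ₗ[Kbar] Om where
  toFun y := (y : Om)
  map_add' _ _ := rfl
  map_smul' a y := by
    show ((a • y : FN N') : Om) = a • (y : Om)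
    rw [← HahnSeries.C_mul_eq_smul, Algebra.smul_def, ← algebraMap_LS_eq_C]
    rfl

theorem inclLin_apply (y : FN N') : inclLin N' y = (y : Om) := rfl

theorem inclLin_injective : Function.Injective (inclLin N') := fun _ _ h => Subtype.ext h

/-- `Q̄[x']` lands in the valuation ring of `P` when `x' = x` is integral at `P`. -/
theorem polyRing_mem_placeRing (P : Place Kbar (FN N)) (x : FN N)
    (hx : x ∈ P.toValuationSubring) (x' : FN N') (hxx : (x' : Om) = (x : Om))
    (r : FFPlaces.polyRing Kbar x') :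
    algebraMap (FN N') Om (algebraMap (FFPlaces.polyRing Kbar x') (FN N') r) ∈ placeRing P := by
  obtain ⟨r, hr⟩ := r
  show algebraMap (FN N') Om r ∈ placeRing P
  induction hr using Algebra.adjoin_induction with
  | mem z hz =>
    rw [Set.mem_singleton_iff] at hz
    subst hz
    exact ⟨x, hx, hxx.symm⟩
  | algebraMap a =>
    refine ⟨algebraMap Kbar (FN N) a, P.algebraMap_mem' a, ?_⟩
    rw [IntermediateField.algebraMap_apply, IntermediateField.algebraMap_apply,
      IntermediateField.coe_algebraMap_apply, IntermediateField.coe_algebraMap_apply]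
  | add a b _ _ ha hb =>
    rw [map_add]
    exact add_mem ha hb
  | mul a b _ _ ha hb =>
    rw [map_mul]
    exact mul_mem ha hb

/-- An element lying in every place at which `x` is integral is integral over `K[x]`. -/
theorem isIntegral_polyRing_of_forall_mem {K F : Type*} [Field K] [CharZero K] [Field F]
    [Algebra K F] {x : F} [FiniteDimensional K⟮x⟯ F] (y : F)
    (h : ∀ v : Place K F, x ∈ v.toValuationSubring → y ∈ v.toValuationSubring) :
    IsIntegral (FFPlaces.polyRing K x) y :=
  (DedekindWeber.isIntegral_iff_forall_place (K := K) (R := FFPlaces.polyRing K x) y).mpr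
    (fun v hv => h v (hv ⟨x, Algebra.self_mem_adjoin_singleton K x⟩))

variable [NeZero N] [NeZero N']

/-- If `t * y` is integral over the valuation ring of a place `P` of `F_N` lying under the place
`v` of `F_{N'}`, then `t * y ∈ O_v`. -/
theorem mem_of_isIntegral_placeRing (hdiv : N ∣ N') (v : Place Kbar (FN N'))
    (P : Place Kbar (FN N))
    (hP : ∀ f : FN N, f ∈ P.toValuationSubring →
      (levelAlgebra hdiv).algebraMap f ∈ v.toValuationSubring)
    (t : FN N) (y : FN N') (ht : IsIntegral (placeRing P) ((t : Om) * (y : Om))) :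
    (levelAlgebra hdiv).algebraMap t * y ∈ v.toValuationSubring := by
  have hle : placeRing P ≤ v.toValuationSubring.toSubring.map (algebraMap (FN N') Om) := by
    rintro _ ⟨f, hf, rfl⟩
    exact ⟨(levelAlgebra hdiv).algebraMap f, hP f hf, coe_levelAlgebraMap hdiv f⟩
  have e : algebraMap (FN N') Om ((levelAlgebra hdiv).algebraMap t * y) = (t : Om) * (y : Om) := by
    rw [map_mul, IntermediateField.algebraMap_apply, IntermediateField.algebraMap_apply,
      coe_levelAlgebraMap hdiv]
  have h2 : IsIntegral (v.toValuationSubring.toSubring.map (algebraMap (FN N') Om))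
      (algebraMap (FN N') Om ((levelAlgebra hdiv).algebraMap t * y)) := by
    rw [e]
    exact isIntegral_subring_mono hle ht
  obtain ⟨p, hp, hpz⟩ := isIntegral_of_map (algebraMap (FN N') Om)
    (algebraMap (FN N') Om).injective _ _ h2
  have h4 : IsIntegral v.toValuationSubring ((levelAlgebra hdiv).algebraMap t * y) :=
    ⟨p, hp, hpz⟩
  obtain ⟨z, hz⟩ := IsIntegrallyClosed.isIntegral_iff.mp h4
  rw [← hz]
  exact z.2

theorem jBar_ne_zero (N : ℕ) [NeZero N] : jBar N ≠ 0 :=
  fun h => FibreCount.transcendental_jBar N (h ▸ isAlgebraic_zero)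

/-- Elements of `L(c (j)_∞)` on `F_{N'}` are integral over `Q̄[j]`. -/
theorem isIntegral_polyRing_of_mem (c : ℕ) (D' : Divisor Kbar (FN N'))
    (hD' : ∀ v : Place Kbar (FN N'), D' v = c * max 0 (-(v.ord (jBar N')))) (y : FN N')
    (hy : y ∈ riemannRochSpace D') : IsIntegral (FFPlaces.polyRing Kbar (jBar N')) y := by
  haveI : FiniteDimensional Kbar⟮jBar N'⟯ (FN N') := FibreCount.finiteDimensional N'
  rw [mem_riemannRochSpace_iff] at hy
  refine isIntegral_polyRing_of_forall_mem y (fun v hjv => ?_)
  have hjord := (FFPlaces.mem_iff_ord_nonneg v (jBar_ne_zero N')).mp hjv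
  by_cases hy0 : y = 0
  · rw [hy0]; exact zero_mem _
  rw [FFPlaces.mem_iff_ord_nonneg v hy0]
  have h1 := (hy v).resolve_left hy0
  rw [hD' v, max_eq_left (by omega), mul_zero, neg_zero] at h1
  exact h1

/-- For `y ∈ L(c (j)_∞)` on `F_{N'}`, `j⁻ᶜ y` is integral over `Q̄[j⁻¹]`. -/
theorem isIntegral_polyRing_inv_of_mem (c : ℕ) (D' : Divisor Kbar (FN N'))
    (hD' : ∀ v : Place Kbar (FN N'), D' v = c * max 0 (-(v.ord (jBar N')))) (y : FN N')
    (hy : y ∈ riemannRochSpace D') :
    IsIntegral (FFPlaces.polyRing Kbar (jBar N')⁻¹) ((jBar N')⁻¹ ^ c * y) := by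
  haveI : FiniteDimensional Kbar⟮jBar N'⟯ (FN N') := FibreCount.finiteDimensional N'
  haveI : FiniteDimensional Kbar⟮(jBar N')⁻¹⟯ (FN N') :=
    FFPlaces.finiteDimensional_of_eq (FFPlaces.adjoin_inv (K := Kbar) (jBar N')).symm
  have hj0' := jBar_ne_zero N'
  rw [mem_riemannRochSpace_iff] at hy
  refine isIntegral_polyRing_of_forall_mem _ (fun v hjv => ?_)
  have hjord := (FFPlaces.mem_iff_ord_nonneg v (inv_ne_zero hj0')).mp hjv
  rw [Place.ord_inv] at hjord
  by_cases hy0 : y = 0
  · rw [hy0, mul_zero]; exact zero_mem _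
  rw [FFPlaces.mem_iff_ord_nonneg v (mul_ne_zero (pow_ne_zero _ (inv_ne_zero hj0')) hy0)]
  have h1 := (hy v).resolve_left hy0
  rw [hD' v, max_eq_right (by omega)] at h1
  rw [v.ord_mul (pow_ne_zero _ (inv_ne_zero hj0')) hy0, ord_pow, Place.ord_inv]
  linarith

/-- The base case, second inclusion. -/
theorem pullRR_base_ge (c : ℕ) (D : Divisor Kbar (FN N))
    (hD : ∀ P : Place Kbar (FN N), D P = c * poleMult (jBar N) P) (D' : Divisor Kbar (FN N'))
    (hD' : ∀ v : Place Kbar (FN N'), D' v = c * max 0 (-(v.ord (jBar N')))) :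
    (riemannRochSpace D').map (inclLin N') ≤ pullRR N N' D := by
  have hj0 : jBar N ≠ 0 := jBar_ne_zero N
  rintro _ ⟨y, hy, rfl⟩
  have hint1 := isIntegral_polyRing_of_mem c D' hD' y hy
  have hint2 := isIntegral_polyRing_inv_of_mem c D' hD' y hy
  refine ⟨y.2, fun P t ht hB => ?_⟩
  rw [inclLin_apply]
  by_cases hx : 0 ≤ P.ord (jBar N)
  · have hjP : jBar N ∈ P.toValuationSubring := (FFPlaces.mem_iff_ord_nonneg P hj0).mpr hx
    have htP : t ∈ P.toValuationSubring := by
      rw [FFPlaces.mem_iff_ord_nonneg P ht]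
      rw [hD, poleMult_of_nonneg hx, mul_zero] at hB
      exact hB
    have htS : (t : Om) ∈ placeRing P := ⟨t, htP, rfl⟩
    have h1 : IsIntegral (placeRing P) (algebraMap (FN N') Om y) :=
      isIntegral_subring_of_algebra (algebraMap (FN N') Om) (placeRing P)
        (polyRing_mem_placeRing P (jBar N) hjP (jBar N') rfl) hint1
    exact (isIntegral_algebraMap (R := placeRing P) (x := ⟨(t : Om), htS⟩)).mul h1
  · have hx' : P.ord (jBar N) < 0 := not_le.mp hx
    have hjP : (jBar N)⁻¹ ∈ P.toValuationSubring := by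
      rw [FFPlaces.mem_iff_ord_nonneg P (inv_ne_zero hj0), Place.ord_inv]
      omega
    have hsP : t * jBar N ^ c ∈ P.toValuationSubring := by
      rw [FFPlaces.mem_iff_ord_nonneg P (mul_ne_zero ht (pow_ne_zero _ hj0)),
        P.ord_mul ht (pow_ne_zero _ hj0), ord_pow]
      rw [hD, poleMult_of_neg hx'] at hB
      linarith
    have hsS : ((t * jBar N ^ c : FN N) : Om) ∈ placeRing P := ⟨_, hsP, rfl⟩
    have h1 : IsIntegral (placeRing P) (algebraMap (FN N') Om ((jBar N')⁻¹ ^ c * y)) :=
      isIntegral_subring_of_algebra (algebraMap (FN N') Om) (placeRing P)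
        (polyRing_mem_placeRing P (jBar N)⁻¹ hjP (jBar N')⁻¹ (by
          rw [IntermediateField.coe_inv, IntermediateField.coe_inv]; rfl)) hint2
    have h2 := (isIntegral_algebraMap (R := placeRing P)
      (x := ⟨((t * jBar N ^ c : FN N) : Om), hsS⟩)).mul h1
    have hJ : ((jBar N : FN N) : Om) ≠ 0 := coe_ne_zero hj0
    have e : algebraMap (placeRing P) Om ⟨((t * jBar N ^ c : FN N) : Om), hsS⟩
          * algebraMap (FN N') Om ((jBar N')⁻¹ ^ c * y) = (t : Om) * (y : Om) := by
      show ((t * jBar N ^ c : FN N) : Om) * (((jBar N')⁻¹ ^ c * y : FN N') : Om) = _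
      rw [IntermediateField.coe_mul, IntermediateField.coe_mul, IntermediateField.coe_pow,
        IntermediateField.coe_pow, IntermediateField.coe_inv]
      have hJJ : ((jBar N' : FN N') : Om) = ((jBar N : FN N) : Om) := rfl
      rw [hJJ, inv_pow]
      field_simp
    rw [e] at h2
    exact h2

end base

end Fermat.Agent.S18.RR0
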