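import Mathlib
import Fermat.Agent.S18.RR0.Pull

/-!
# S18 — [RR0]: the base case `pullRR N N' (c (j)_∞) = L_{F_{N'}}(c (j)_∞)` (helper15)
-/

set_option autoImplicit false

namespace Fermat.Agent.S18.RR0

open IntermediateField ModularCurve AlgebraicCurve Fermat.Agent.S24 Fermat.Agent.S18.Plan
open Fermat.Agent.Lib Fermat.Agent.S18.Content

section base

variable {N N' : ℕ} [NeZero N] [NeZero N']

/-- The base case, first inclusion. -/
theorem pullRR_base_le (hdiv : N ∣ N') (c : ℕ) (D : Divisor Kbar (FN N))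
    (hD : ∀ P : Place Kbar (FN N), D P = c * poleMult (jBar N) P) (D' : Divisor Kbar (FN N'))
    (hD' : ∀ v : Place Kbar (FN N'), D' v = c * max 0 (-(v.ord (jBar N')))) :
    pullRR N N' D ≤ (riemannRochSpace D').map (inclLin N') := by
  letI : Algebra (FN N) (FN N') := levelAlgebra hdiv
  haveI : IsScalarTower Kbar (FN N) (FN N') := levelScalarTower hdiv
  haveI : FiniteDimensional (FN N) (FN N') := finiteDimensional_level hdiv
  haveI : Algebra.IsIntegral (FN N) (FN N') := Algebra.IsIntegral.of_finite (FN N) (FN N')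
  have hmapj : algebraMap (FN N) (FN N') (jBar N) = jBar N' := levelAlgebraMap_jBar hdiv
  have hj0 : jBar N ≠ 0 := jBar_ne_zero N
  rintro g ⟨hg, hint⟩
  refine ⟨⟨g, hg⟩, ?_, inclLin_apply _⟩
  rw [SetLike.mem_coe, mem_riemannRochSpace_iff]
  intro v
  by_cases hy0 : (⟨g, hg⟩ : FN N') = 0
  · exact Or.inl hy0
  right
  have he : 0 < Place.ramificationIndex (F := FN N) v := v.ramificationIndex_pos
  have hord : ∀ f : FN N, v.ord (algebraMap (FN N) (FN N') f)
      = Place.ramificationIndex (F := FN N) v * (v.restrict (FN N)).ord f :=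
    fun f => v.ord_restrict f
  have key : ∀ t : FN N, IsIntegral (placeRing (v.restrict (FN N))) ((t : Om) * g) →
      algebraMap (FN N) (FN N') t * (⟨g, hg⟩ : FN N') ∈ v.toValuationSubring :=
    fun t ht => mem_of_isIntegral_placeRing hdiv v (v.restrict (FN N))
      (fun f hf => (v.mem_restrict_iff).mp hf) t ⟨g, hg⟩ ht
  have hordj : v.ord (jBar N')
      = Place.ramificationIndex (F := FN N) v * (v.restrict (FN N)).ord (jBar N) := by
    rw [← hmapj]
    exact hord _
  have hD'v := hD' v
  by_cases hx : 0 ≤ (v.restrict (FN N)).ord (jBar N)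
  · have h1 := hint (v.restrict (FN N)) 1 one_ne_zero (by
      rw [hD, poleMult_of_nonneg hx, Place.ord_one, mul_zero])
    have h2 := key 1 h1
    rw [map_one, one_mul] at h2
    have h3 := (FFPlaces.mem_iff_ord_nonneg v hy0).mp h2
    have h5 : 0 ≤ v.ord (jBar N') := by
      rw [hordj]
      positivity
    rw [hD'v, max_eq_left (by omega), mul_zero, neg_zero]
    exact h3
  · have hx' : (v.restrict (FN N)).ord (jBar N) < 0 := not_le.mp hx
    have ht0 : (jBar N)⁻¹ ^ c ≠ 0 := pow_ne_zero _ (inv_ne_zero hj0)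
    have htord : (v.restrict (FN N)).ord ((jBar N)⁻¹ ^ c)
        = c * (-((v.restrict (FN N)).ord (jBar N))) := by
      rw [ord_pow, Place.ord_inv]
    have h1 := hint (v.restrict (FN N)) ((jBar N)⁻¹ ^ c) ht0 (by
      rw [hD, poleMult_of_neg hx', htord])
    have h2 := key _ h1
    have hne0 : algebraMap (FN N) (FN N') ((jBar N)⁻¹ ^ c) ≠ 0 := by
      rw [Ne, map_eq_zero]
      exact ht0
    have h3 := (FFPlaces.mem_iff_ord_nonneg v (mul_ne_zero hne0 hy0)).mp h2
    rw [v.ord_mul hne0 hy0, hord, htord] at h3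
    have h5 : v.ord (jBar N') < 0 := by
      rw [hordj]
      exact mul_neg_of_pos_of_neg (by exact_mod_cast he) hx'
    rw [hD'v, max_eq_right (by omega), hordj]
    have h6 : (Place.ramificationIndex (F := FN N) v : ℤ)
          * ((c : ℤ) * -(v.restrict (FN N)).ord (jBar N))
        = (c : ℤ) * -((Place.ramificationIndex (F := FN N) v : ℤ)
          * (v.restrict (FN N)).ord (jBar N)) := by ring
    rw [h6] at h3
    omega

/-- **The base case**: for `D = c (j)_∞` on `F_N` and `D' = c (j)_∞` on `F_{N'}`, the pull-back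
space `pullRR N N' D` is the image of the Prelude Riemann–Roch space of `D'`. -/
theorem pullRR_base (hdiv : N ∣ N') (c : ℕ) (D : Divisor Kbar (FN N))
    (hD : ∀ P : Place Kbar (FN N), D P = c * poleMult (jBar N) P) (D' : Divisor Kbar (FN N'))
    (hD' : ∀ v : Place Kbar (FN N'), D' v = c * max 0 (-(v.ord (jBar N')))) :
    pullRR N N' D = (riemannRochSpace D').map (inclLin N') :=
  le_antisymm (pullRR_base_le hdiv c D hD D' hD') (pullRR_base_ge c D hD D' hD')

end base

end Fermat.Agent.S18.RR0
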